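import Fermat.Agent.ModLift.Lift.Context
import Fermat.Agent.ModLift.Tangent.LevelInterface

/-!
# The modules along the chain of levels, in matrices: interface

`Base` is what does not depend on the auxiliary primes, `Mats` what one set of auxiliary primes
gives modulo a power of the maximal ideal: one algebra with its representation for the whole
chain, the kernels of its actions, the actions in congruent bases and the degeneracy maps.
-/

set_option autoImplicit false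
set_option linter.unusedSectionVars false

noncomputable section

open IsLocalRing

namespace FLTAgent.ModLift

open FLTAgent.TWPrimes

local notation "LL" => AlgebraicClosure ℚ
local notation "GG" => (AlgebraicClosure ℚ ≃ₐ[ℚ] AlgebraicClosure ℚ)
local notation "VS" => ValuationSubring (AlgebraicClosure ℚ)
local notation "M2" => Matrix (Fin 2) (Fin 2)

variable {W : WeierstrassCurve ℤ} {hΔ : W.Δ ≠ 0} {p : ℕ} [Fact p.Prime] {O : Type} [CommRing O]
  [IsDomain O] [IsDiscreteValuationRing O] [Algebra ℤ_[p] O]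
  [Algebra (ZMod p) (ResidueField O)]

namespace Ctx

variable (c : Ctx W hΔ p O)

/-- The primes at which local conditions are prescribed. -/
def S : Finset Nat.Primes :=
  c.S0.bad.attach.image fun l => ⟨l.1, c.S0.bad_prime l.1 l.2⟩

theorem mem_S {l : Nat.Primes} : l ∈ c.S ↔ (l : ℕ) ∈ c.S0.bad := by
  constructor
  · intro h
    obtain ⟨a, -, rfl⟩ := Finset.mem_image.1 h
    exact a.2
  · intro h
    exact Finset.mem_image.2 ⟨⟨_, h⟩, Finset.mem_attach _ _, rfl⟩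

/-- The level after `j` steps. -/
def lev (j : ℕ) : ℕ := c.S0.M0 * ∏ i ∈ Finset.range j, c.q i

/-- The representation of the curve over `O`. -/
def rO : GG →* GL (Fin 2) O :=
  (Matrix.GeneralLinearGroup.map (algebraMap ℤ_[p] O)).comp c.curve.r

end Ctx

/-- The element through which the auxiliary prime `i` acts. -/
def twFun (O : Type) [CommRing O] (r : ℕ) (i : Fin r) : MvPowerSeries (Fin r) O :=
  MvPowerSeries.X i ^ 2 * Ring.inverse (1 + MvPowerSeries.X i)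

/-- What does not depend on the auxiliary primes. The node `(j, e)` is the untwisted (`false`) or
twisted (`true`) module after `j` steps. -/
structure Base (c : Ctx W hΔ p O) where
  d : Fin (c.m + 1) → Bool → ℕ
  d_pos : ∀ j e, 0 < d j e
  d_eq : ∀ j, d j true = d j false
  A0 : ∀ j e, Subalgebra O (Matrix (Fin (d j e)) (Fin (d j e)) O)
  A0_comm : ∀ j e, ∀ a ∈ A0 j e, ∀ b ∈ A0 j e, a * b = b * a
  /-- A bound for the exponents, the same at all auxiliary levels. -/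
  expo : ℕ
  expo_le : Lowering.inertiaExp ≤ expo
  /-- The algebra of the last level without auxiliary primes. -/
  R0 : LevelRep c.D c.S
  mat : R0.R →ₐ[O] Matrix (Fin (d (Fin.last _) false)) (Fin (d (Fin.last _) false)) O
  mat_mem : ∀ x, mat x ∈ A0 (Fin.last _) false
  /-- The matrices come from forms on `Γ₀`. -/
  forms : ∃ (_ : NeZero (c.lev c.m))
    (f : CuspForm.heckeAlgebra (c.lev c.m) 2 (↑c.S0.bad : Set ℕ) →+*
      Matrix (Fin (d (Fin.last _) false)) (Fin (d (Fin.last _) false)) O),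
    ∀ (l : ℕ) (hl : l.Prime) (hlM : ¬ l ∣ c.lev c.m) (hlb : l ∉ (↑c.S0.bad : Set ℕ)),
      ∀ V : VS, V.LiesOverPrime l → ∀ σ : GG, V.IsFrobeniusAt σ l →
        f (CuspForm.heckeAlgebra.T hl hlM hlb) = mat (Matrix.trace (R0.ρ σ : M2 R0.R))

/-- The coefficients modulo a power. -/
abbrev CMod (O : Type) [CommRing O] [IsLocalRing O] (r k : ℕ) : Type :=
  MvPowerSeries (Fin r) O ⧸ maximalIdeal (MvPowerSeries (Fin r) O) ^ k

/-- The data of the auxiliary primes `Q` modulo the `k`th power. -/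
structure Mats (c : Ctx W hΔ p O) (B : Base c) (Q : Finset Nat.Primes) (r k : ℕ) where
  L : LevelRep c.D (c.S ∪ Q)
  res : L.R →ₐ[O] B.R0.R
  res_trace : ∀ σ, res (Matrix.trace (L.ρ σ : M2 L.R)) = Matrix.trace (B.R0.ρ σ : M2 B.R0.R)
  /-- Elements dying in the algebra of the `j`th level. -/
  Kr : Fin (c.m + 1) → Ideal L.R
  Kr_anti : ∀ j j', j ≤ j' → Kr j' ≤ Kr j
  Kr_last : Kr (Fin.last _) = ⊥
  Kr_ne : ∀ j, Kr j ≠ ⊤
  /-- Elements acting as zero on a node. -/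
  K : Fin (c.m + 1) → Bool → Ideal L.R
  Kr_le : ∀ j e, Kr j ≤ K j e
  Kr_inf : ∀ j, K j false ⊓ K j true ≤ Kr j
  K_sat : ∀ j e, ∀ a : O, a ≠ 0 → ∀ x, algebraMap O L.R a * x ∈ K j e → x ∈ K j e
  act : ∀ j e, L.R →ₐ[O] Matrix (Fin (B.d j e)) (Fin (B.d j e)) (CMod O r k)
  act_K : ∀ j e, ∀ x ∈ K j e, act j e x = 0
  base : ∀ j e x, ∃ a ∈ B.A0 j e, ∀ u v, ∃ b : MvPowerSeries (Fin r) O,
    act j e x u v = Ideal.Quotient.mk _ b ∧
      MvPowerSeries.constantCoeff b -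
        (a : Matrix (Fin (B.d j e)) (Fin (B.d j e)) O) u v ∈ maximalIdeal O ^ k
  base_last : ∀ x u v, ∃ b : MvPowerSeries (Fin r) O,
    act (Fin.last _) false x u v = Ideal.Quotient.mk _ b ∧
      MvPowerSeries.constantCoeff b - B.mat (res x) u v ∈ maximalIdeal O ^ k
  congr : ∀ j x u v, act j false x u v -
    act j true x (Fin.cast (B.d_eq j).symm u) (Fin.cast (B.d_eq j).symm v) ∈
      (maximalIdeal O).map (algebraMap O (CMod O r k))
  /-- Inertia elements at the auxiliary primes through which the variables act. -/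
  σq : Fin r → GG
  σq_mem : ∀ i, ∃ q ∈ Q, ∃ V : VS, V.LiesOverPrime (q : ℕ) ∧ σq i ∈ V.inertiaSubgroupIn ℚ
  σq_act : ∀ i j e, (act j e (Matrix.trace (L.ρ (σq i) : M2 L.R) - 2) -
    algebraMap (CMod O r k) _ (Ideal.Quotient.mk _ (twFun O r i))) ^ Lowering.inertiaExp = 0
  unramified : ∀ (j : Fin (c.m + 1)) (l : Nat.Primes), (l : ℕ) ≠ p → l ∉ Q → ¬ (l : ℕ) ∣ c.lev j →
    ∀ V : VS, V.LiesOverPrime (l : ℕ) → ∀ σ ∈ V.inertiaSubgroupIn ℚ,
      ∀ u v, (L.ρ σ : M2 L.R) u v - (1 : M2 L.R) u v ∈ Kr j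
  unipotent : ∀ (j : Fin (c.m + 1)) (l : ℕ), l.Prime → l ≠ p → l ∣ c.lev j → l ∉ c.S0.T →
    ∀ V : VS, V.LiesOverPrime l → ∀ σ ∈ V.inertiaSubgroupIn ℚ,
      Matrix.trace (L.ρ σ : M2 L.R) - 2 ∈ Kr j ∧
      ∀ u v, (((L.ρ σ : M2 L.R) - 1) ^ 2 : M2 L.R) u v ∈ Kr j
  untwisted : ∀ j, ∀ t ∈ c.S0.T, ∀ V : VS, V.LiesOverPrime t →
    ∀ σ ∈ V.inertiaSubgroupIn ℚ, Matrix.trace (L.ρ σ : M2 L.R) - 2 ∈ K j false
  twisted : ∀ j, ∀ (t : ℕ) (ht : t ∈ c.S0.T), ∀ V : VS, V.LiesOverPrime t →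
    ∀ σ ∈ V.inertiaSubgroupIn ℚ, ∀ u : (ZMod t)ˣ,
      (∀ ζ : LL, ζ ^ t = 1 → σ ζ = ζ ^ (u : ZMod t).val) →
      (Matrix.trace (L.ρ σ : M2 L.R) - algebraMap O L.R
        (((c.S0.χ t ht u) ^ ((p + 1) / 2) : Oˣ) +
          (((c.S0.χ t ht u) ^ ((p + 1) / 2))⁻¹ : Oˣ))) ^ Lowering.inertiaExp ∈ K j true
  ordinary : ∀ j : Fin (c.m + 1), p ∣ c.lev j → ∀ V : VS, V.LiesOverPrime p →
    ∀ σ ∈ V.inertiaSubgroupIn ℚ, ∀ τ ∈ V.inertiaSubgroupIn ℚ, ∀ u v,
      (((L.ρ σ : M2 L.R) - Matrix.det (L.ρ σ : M2 L.R) • 1) *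
        ((L.ρ τ : M2 L.R) - 1)) u v ∈ Kr j
  flat : ∀ j : Fin (c.m + 1), ¬ p ∣ c.lev j → ∀ V : VS, V.LiesOverPrime p →
    ∃ s : ℕ, ∀ n : ℕ, ∃ (M : Type) (_ : AddCommGroup M) (_ : Module L.R M) (_ : Finite M)
      (actM : GG →* Module.End L.R M),
      (∀ m : M, p ^ n • m = 0) ∧ (∀ x ∈ Kr j, ∀ m : M, x • m = 0) ∧
      (∀ (σ : GG) (m : M), actM σ (actM σ m) + Matrix.det (L.ρ σ : M2 L.R) • m =
        Matrix.trace (L.ρ σ : M2 L.R) • actM σ m) ∧
      (∀ t : L.R, (∀ m : M, t • m = 0) → t ∈ Ideal.span {(p : L.R) ^ (n - s)} ⊔ Kr j) ∧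
      FlatLocal.FlatI V fun σ : FlatLocal.Dec V => actM (σ : GG)
  /-- The degeneracy maps from step `j` to step `j + 1`. -/
  up : ∀ (j : Fin c.m) e, (Fin 2 → Fin (B.d j.castSucc e) → CMod O r k) →ₗ[CMod O r k]
    Fin (B.d j.succ e) → CMod O r k
  down : ∀ (j : Fin c.m) e, (Fin (B.d j.succ e) → CMod O r k) →ₗ[CMod O r k]
    Fin 2 → Fin (B.d j.castSucc e) → CMod O r k
  up_act : ∀ j e x v, up j e (fun b => (act j.castSucc e x).mulVec (v b)) =
    (act j.succ e x).mulVec (up j e v)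
  down_act : ∀ j e x v, down j e ((act j.succ e x).mulVec v) =
    fun b => (act j.castSucc e x).mulVec (down j e v b)
  up_inj : ∀ j e v, (∀ u, ¬ IsUnit (up j e v u)) → ∀ b u, ¬ IsUnit (v b u)
  down_surj : ∀ j e, Function.Surjective (down j e)
  /-- The composite, by the trace of Frobenius. -/
  comp : ∀ (j : Fin c.m) e, c.q j ≠ p → ∀ V : VS, V.LiesOverPrime (c.q j) →
    ∀ φ : GG, V.IsFrobeniusAt φ (c.q j) → ∀ v b, down j e (up j e v) b =
      ((c.q j : CMod O r k) + 1) • v b +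
        (act j.castSucc e (Matrix.trace (L.ρ φ : M2 L.R))).mulVec (v (1 - b))
  old_range : ∀ (j : Fin c.m) e, c.q j ≠ p → ∀ V : VS, V.LiesOverPrime (c.q j) →
    ∀ φ : GG, V.IsFrobeniusAt φ (c.q j) → ∀ v,
      (act j.succ e (Matrix.trace (L.ρ φ : M2 L.R) ^ 2 - ((c.q j : L.R) + 1) ^ 2) ^ B.expo).mulVec v ∈
        LinearMap.range (up j e)
  /-- At `p` the root of Frobenius on the unramified quotient takes the place of the trace. -/
  comp_p : ∀ (j : Fin c.m) e, c.q j = p → ∀ V : VS, V.LiesOverPrime p →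
    ∀ φ : GG, V.IsFrobeniusAt φ p → ∀ z z' : L.R, z * z' = 1 →
      (∀ σ ∈ V.inertiaSubgroupIn ℚ, ∀ u w,
        (((L.ρ σ : M2 L.R) - Matrix.det (L.ρ σ : M2 L.R) • 1) *
          ((L.ρ φ : M2 L.R) - z • 1)) u w ∈ Kr j.succ) →
      (∀ v b, down j e (up j e v) b = ((p : CMod O r k) + 1) • v b +
        (act j.castSucc e (z + (p : L.R) * z')).mulVec (v (1 - b))) ∧
      ∀ v, (act j.succ e (z ^ 2 - 1) ^ B.expo).mulVec v ∈ LinearMap.range (up j e)

/-- The chain of levels gives these data. -/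
def TargetMats : Prop :=
  ∀ (W : WeierstrassCurve ℤ) (hΔ : W.Δ ≠ 0) (p : ℕ) [Fact p.Prime] (O : Type) [CommRing O]
    [IsDomain O] [IsDiscreteValuationRing O] [Algebra ℤ_[p] O] [Module.Finite ℤ_[p] O]
    [CharZero O] [IsAdicComplete (maximalIdeal O) O] [Finite (ResidueField O)]
    [Algebra (ZMod p) (ResidueField O)] (c : Ctx W hΔ p O),
    ∃ B : Base c, ∀ r k n : ℕ, 0 < k → k ≤ n → ∀ Q : Finset Nat.Primes, Q.card = r →
      (∀ q ∈ Q, q ∉ c.S ∧ IsAux c.D n q) → Nonempty (Mats c B Q r k)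

/-- The curve joins the chain: one algebra mapping onto that of the chain and to `O`, with a
representation going exactly to that of the curve. -/
def TargetJoin : Prop :=
  ∀ (W : WeierstrassCurve ℤ) (hΔ : W.Δ ≠ 0) (p : ℕ) [Fact p.Prime] (O : Type) [CommRing O]
    [IsDomain O] [IsDiscreteValuationRing O] [Algebra ℤ_[p] O] [Module.Finite ℤ_[p] O]
    [CharZero O] [IsAdicComplete (maximalIdeal O) O] [Finite (ResidueField O)]
    [Algebra (ZMod p) (ResidueField O)] (c : Ctx W hΔ p O) (Q : Finset Nat.Primes)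
    (L : LevelRep c.D (c.S ∪ Q)),
    (∀ a : O, a ≠ 0 → ∀ x : L.R, algebraMap O L.R a * x = 0 → x = 0) →
      ∃ (J : LevelRep c.D (c.S ∪ Q)) (π : J.R →ₐ[O] L.R) (pt : J.R →ₐ[O] O) (P : GL (Fin 2) L.R),
        Function.Surjective π ∧ (∀ x, π x = 0 → pt x = 0 → x = 0) ∧
        (∀ σ, (J.ρ σ : M2 J.R).map π = ((P * L.ρ σ * P⁻¹ : GL (Fin 2) L.R) : M2 L.R)) ∧
        ∀ σ, (J.ρ σ : M2 J.R).map pt = (c.rO σ : M2 O)

end FLTAgent.ModLift
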